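import Mathlib

/-!
# S52, Part A, pieces A2b + A2e (abstract form) — helper127

Pure algebra, Mathlib only.

* `IsPar h` : the parallelogram law `h (P + Q) + h (P - Q) = 2 * h P + 2 * h Q` for an
  integer-valued function on an abelian group.
* `IsPar.polar h P Q = h (P + Q) - h P - h Q` is symmetric and biadditive (A2b).
* `IsPar.frobenius_relation` (A2e): if `Φ : M →+ M` satisfies `h (Φ Q) = ℓ * h Q` and
  `h (Φ Q - Q) = (ℓ + 1 - a) * h Q` for all `Q`, then `h (Φ (Φ Q) - a • Φ Q + ℓ • Q) = 0`.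
* `ℕ`-valued variants `frobenius_relation_nat`.
-/

set_option autoImplicit false

namespace Fermat.Agent.S52.H127

variable {M : Type*} [AddCommGroup M]

/-- The parallelogram law for an integer-valued function on an abelian group. -/
def IsPar (h : M → ℤ) : Prop :=
  ∀ P Q : M, h (P + Q) + h (P - Q) = 2 * h P + 2 * h Q

namespace IsPar

variable {h : M → ℤ}

theorem height_zero (hp : IsPar h) : h 0 = 0 := by
  have := hp 0 0
  simp only [add_zero, sub_zero] at this
  omega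

theorem height_neg (hp : IsPar h) (Q : M) : h (-Q) = h Q := by
  have h1 := hp 0 Q
  have h0 := hp.height_zero
  simp only [zero_add, zero_sub] at h1
  omega

theorem height_sub_comm (hp : IsPar h) (P Q : M) : h (P - Q) = h (Q - P) := by
  rw [← hp.height_neg (P - Q), neg_sub]

theorem height_two_nsmul (hp : IsPar h) (P : M) : h (P + P) = 4 * h P := by
  have h1 := hp P P
  have h0 := hp.height_zero
  simp only [sub_self] at h1
  omega

/-- The polar form of `h`. -/
def polar (h : M → ℤ) (P Q : M) : ℤ := h (P + Q) - h P - h Q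

theorem polar_def (h : M → ℤ) (P Q : M) : polar h P Q = h (P + Q) - h P - h Q := rfl

theorem height_add (h : M → ℤ) (P Q : M) : h (P + Q) = h P + h Q + polar h P Q := by
  rw [polar_def]; ring

theorem height_sub (hp : IsPar h) (P Q : M) : h (P - Q) = h P + h Q - polar h P Q := by
  have := hp P Q
  rw [polar_def]
  omega

theorem polar_comm (h : M → ℤ) (P Q : M) : polar h P Q = polar h Q P := by
  rw [polar_def, polar_def, add_comm P Q]; ring

theorem polar_self (hp : IsPar h) (P : M) : polar h P P = 2 * h P := by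
  rw [polar_def, hp.height_two_nsmul]; ring

/-- The cube identity. -/
theorem cube (hp : IsPar h) (P P' Q : M) :
    h (P + P' + Q) + h P + h P' + h Q = h (P + P') + h (P + Q) + h (P' + Q) := by
  have h1 := hp (P + Q) (P' + Q)
  have h2 := hp (P + P' + Q) Q
  have h3 := hp P P'
  have e1 : P + Q + (P' + Q) = P + P' + Q + Q := by abel
  have e2 : P + Q - (P' + Q) = P - P' := by abel
  have e3 : P + P' + Q - Q = P + P' := by abel
  rw [e1, e2] at h1
  rw [e3] at h2
  omega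

theorem polar_add_left (hp : IsPar h) (P P' Q : M) :
    polar h (P + P') Q = polar h P Q + polar h P' Q := by
  have := hp.cube P P' Q
  simp only [polar_def]
  omega

theorem polar_add_right (hp : IsPar h) (P Q Q' : M) :
    polar h P (Q + Q') = polar h P Q + polar h P Q' := by
  rw [polar_comm, hp.polar_add_left, polar_comm h Q P, polar_comm h Q' P]

/-- The polar form as a homomorphism in the first variable. -/
def polarHom (hp : IsPar h) (Q : M) : M →+ ℤ :=
  AddMonoidHom.mk' (fun P => polar h P Q) fun P P' => hp.polar_add_left P P' Q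

@[simp] theorem polarHom_apply (hp : IsPar h) (Q P : M) : hp.polarHom Q P = polar h P Q := rfl

theorem polar_zero_left (hp : IsPar h) (Q : M) : polar h 0 Q = 0 :=
  _root_.map_zero (hp.polarHom Q)

theorem polar_zero_right (hp : IsPar h) (P : M) : polar h P 0 = 0 := by
  rw [polar_comm, hp.polar_zero_left]

theorem polar_neg_left (hp : IsPar h) (P Q : M) : polar h (-P) Q = -polar h P Q :=
  _root_.map_neg (hp.polarHom Q) P

theorem polar_neg_right (hp : IsPar h) (P Q : M) : polar h P (-Q) = -polar h P Q := by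
  rw [polar_comm, hp.polar_neg_left, polar_comm]

theorem polar_sub_left (hp : IsPar h) (P P' Q : M) :
    polar h (P - P') Q = polar h P Q - polar h P' Q :=
  _root_.map_sub (hp.polarHom Q) P P'

theorem polar_sub_right (hp : IsPar h) (P Q Q' : M) :
    polar h P (Q - Q') = polar h P Q - polar h P Q' := by
  rw [polar_comm, hp.polar_sub_left, polar_comm h Q P, polar_comm h Q' P]

theorem polar_zsmul_left (hp : IsPar h) (n : ℤ) (P Q : M) :
    polar h (n • P) Q = n * polar h P Q := by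
  have := _root_.map_zsmul (hp.polarHom Q) n P
  simpa [smul_eq_mul] using this

theorem polar_zsmul_right (hp : IsPar h) (n : ℤ) (P Q : M) :
    polar h P (n • Q) = n * polar h P Q := by
  rw [polar_comm, hp.polar_zsmul_left, polar_comm]

theorem polar_nsmul_left (hp : IsPar h) (n : ℕ) (P Q : M) :
    polar h (n • P) Q = n * polar h P Q := by
  have := _root_.map_nsmul (hp.polarHom Q) n P
  simpa [smul_eq_mul] using this

theorem polar_nsmul_right (hp : IsPar h) (n : ℕ) (P Q : M) :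
    polar h P (n • Q) = n * polar h P Q := by
  rw [polar_comm, hp.polar_nsmul_left, polar_comm]

theorem polar_sum_left (hp : IsPar h) {ι : Type*} (s : Finset ι) (P : ι → M) (Q : M) :
    polar h (∑ i ∈ s, P i) Q = ∑ i ∈ s, polar h (P i) Q := by
  show hp.polarHom Q (∑ i ∈ s, P i) = ∑ i ∈ s, hp.polarHom Q (P i)
  exact _root_.map_sum (hp.polarHom Q) P s

/-- `h` is homogeneous of degree two. -/
theorem height_zsmul (hp : IsPar h) (n : ℤ) (P : M) : h (n • P) = n ^ 2 * h P := by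
  have h1 : polar h (n • P) (n • P) = 2 * h (n • P) := hp.polar_self _
  rw [hp.polar_zsmul_left, hp.polar_zsmul_right, hp.polar_self] at h1
  have h2 : 2 * h (n • P) = 2 * (n ^ 2 * h P) := by rw [← h1]; ring
  omega

theorem height_nsmul (hp : IsPar h) (n : ℕ) (P : M) : h (n • P) = (n : ℤ) ^ 2 * h P := by
  have := hp.height_zsmul (n : ℤ) P
  rwa [natCast_zsmul] at this

/-! ### Endomorphisms scaling `h` -/

section Endo

variable (hp : IsPar h) (Φ : M →+ M) (ℓ a : ℤ)

/-- If `h ∘ Φ = ℓ * h` then `polar (Φ P) (Φ Q) = ℓ * polar P Q`. -/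
theorem polar_map_map (hΦ : ∀ Q, h (Φ Q) = ℓ * h Q) (P Q : M) :
    polar h (Φ P) (Φ Q) = ℓ * polar h P Q := by
  have h1 := hΦ (P + Q)
  rw [_root_.map_add Φ] at h1
  simp only [polar_def]
  rw [h1, hΦ P, hΦ Q]
  ring

include hp in
/-- `polar (Φ Q) Q = a * h Q`. -/
theorem polar_map_self (hΦ : ∀ Q, h (Φ Q) = ℓ * h Q)
    (hΦ1 : ∀ Q, h (Φ Q - Q) = (ℓ + 1 - a) * h Q) (Q : M) :
    polar h (Φ Q) Q = a * h Q := by
  have h1 := hΦ1 Q
  rw [hp.height_sub, hΦ Q] at h1
  linear_combination -h1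

include hp in
/-- Polarised form: `polar (Φ P) Q + polar (Φ Q) P = a * polar P Q`. -/
theorem polar_map_add_polar_map (hΦ : ∀ Q, h (Φ Q) = ℓ * h Q)
    (hΦ1 : ∀ Q, h (Φ Q - Q) = (ℓ + 1 - a) * h Q) (P Q : M) :
    polar h (Φ P) Q + polar h (Φ Q) P = a * polar h P Q := by
  have h1 := hp.polar_map_self Φ ℓ a hΦ hΦ1 (P + Q)
  rw [_root_.map_add Φ, hp.polar_add_left, hp.polar_add_right, hp.polar_add_right,
    hp.polar_map_self Φ ℓ a hΦ hΦ1 P, hp.polar_map_self Φ ℓ a hΦ hΦ1 Q, height_add h P Q] at h1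
  linear_combination h1

include hp in
/-- `polar (Φ (Φ Q)) Q = (a ^ 2 - 2 * ℓ) * h Q`. -/
theorem polar_map_map_self (hΦ : ∀ Q, h (Φ Q) = ℓ * h Q)
    (hΦ1 : ∀ Q, h (Φ Q - Q) = (ℓ + 1 - a) * h Q) (Q : M) :
    polar h (Φ (Φ Q)) Q = (a ^ 2 - 2 * ℓ) * h Q := by
  have h1 := hp.polar_map_add_polar_map Φ ℓ a hΦ hΦ1 (Φ Q) Q
  rw [hp.polar_self, hΦ Q, hp.polar_map_self Φ ℓ a hΦ hΦ1 Q] at h1
  linear_combination h1

include hp in
/-- **A2e (abstract Frobenius relation).**  If `h` satisfies the parallelogram law and the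
endomorphism `Φ` satisfies `h (Φ Q) = ℓ * h Q` and `h (Φ Q - Q) = (ℓ + 1 - a) * h Q`, then
`h` vanishes on `(Φ² - a Φ + ℓ) Q`. -/
theorem frobenius_relation (hΦ : ∀ Q, h (Φ Q) = ℓ * h Q)
    (hΦ1 : ∀ Q, h (Φ Q - Q) = (ℓ + 1 - a) * h Q) (Q : M) :
    h (Φ (Φ Q) - a • Φ Q + ℓ • Q) = 0 := by
  have e1 := hp.polar_map_self Φ ℓ a hΦ hΦ1 Q
  have e2 := hp.polar_map_self Φ ℓ a hΦ hΦ1 (Φ Q)
  have e3 := hp.polar_map_map_self Φ ℓ a hΦ hΦ1 Q
  rw [height_add h (Φ (Φ Q) - a • Φ Q) (ℓ • Q), hp.height_sub, hp.height_zsmul, hp.height_zsmul,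
    hp.polar_sub_left,
    hp.polar_zsmul_right, hp.polar_zsmul_right, hp.polar_zsmul_right, hp.polar_zsmul_left,
    hΦ (Φ Q), hΦ Q, e2, e3, e1, hΦ Q]
  ring

include hp in
/-- The same with the relation written as `Φ² Q + ℓ Q = a Φ Q` up to a point of height `0`. -/
theorem frobenius_relation' (hΦ : ∀ Q, h (Φ Q) = ℓ * h Q)
    (hΦ1 : ∀ Q, h (Φ Q - Q) = (ℓ + 1 - a) * h Q) (Q : M) :
    h (Φ (Φ Q) + ℓ • Q - a • Φ Q) = 0 := by
  have := hp.frobenius_relation Φ ℓ a hΦ hΦ1 Q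
  have e : Φ (Φ Q) + ℓ • Q - a • Φ Q = Φ (Φ Q) - a • Φ Q + ℓ • Q := by abel
  rw [e]; exact this

end Endo

end IsPar

/-! ### `ℕ`-valued heights -/

/-- The parallelogram law for a `ℕ`-valued function. -/
def IsParNat (h : M → ℕ) : Prop :=
  ∀ P Q : M, h (P + Q) + h (P - Q) = 2 * h P + 2 * h Q

theorem IsParNat.isPar {h : M → ℕ} (hp : IsParNat h) : IsPar fun P => (h P : ℤ) := by
  intro P Q
  have := hp P Q
  push_cast [← this]
  exact_mod_cast this

/-- **A2e for `ℕ`-valued heights.**  `N` plays the role of `#E(𝔽_ℓ)`, `a = ℓ + 1 - N`. -/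
theorem IsParNat.frobenius_relation {h : M → ℕ} (hp : IsParNat h) (Φ : M →+ M) (ℓ N : ℕ)
    (hΦ : ∀ Q, h (Φ Q) = ℓ * h Q) (hΦ1 : ∀ Q, h (Φ Q - Q) = N * h Q) (Q : M) :
    h (Φ (Φ Q) - ((ℓ : ℤ) + 1 - N) • Φ Q + ℓ • Q) = 0 := by
  have key := hp.isPar.frobenius_relation Φ (ℓ : ℤ) ((ℓ : ℤ) + 1 - N)
    (fun Q => by
      show ((h (Φ Q) : ℕ) : ℤ) = (ℓ : ℤ) * ((h Q : ℕ) : ℤ)
      rw [hΦ Q]; push_cast; ring)
    (fun Q => by
      show ((h (Φ Q - Q) : ℕ) : ℤ) = ((ℓ : ℤ) + 1 - ((ℓ : ℤ) + 1 - N)) * ((h Q : ℕ) : ℤ)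
      rw [hΦ1 Q]; push_cast; ring) Q
  have key' : ((h (Φ (Φ Q) - ((ℓ : ℤ) + 1 - N) • Φ Q + (ℓ : ℤ) • Q) : ℕ) : ℤ) = 0 := key
  rw [natCast_zsmul] at key'
  exact_mod_cast key'

end Fermat.Agent.S52.H127
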